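/-
S44 / DEPTH (architect helper219, proofs helper205): THE INSTANCE, block NT, nodes NT-3, NT-8, NT-9.

* `depth_le`           : the depth of an element `τ` of inertia on the integers of an Eisenstein extension `L / K₀`;
* `root_A0`            : `p`-th roots modulo the maximal ideal of `A0 A`;
* `exists_moved_point` : an element of inertia which moves an element of `K₀(E[p])` moves a point of `E[p]`.
-/
import Fermat.Agent.S44.Depth.Inst.Defs
import Fermat.Agent.S44.Depth.BC.Eis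
import Fermat.Agent.BAD.Bridge.BaseHyp
import Fermat.Agent.Lib.InertiaField.Residue

set_option autoImplicit false

noncomputable section

namespace Fermat.Agent.S44.Depth.Inst

open ModularCurve AlgebraicCurve Fermat.Agent.S24 Fermat.Agent.GAL Fermat.Agent.S44.X
  Fermat.Agent.Lib.InertiaField Fermat.Agent.S18.Descent Fermat.Agent.BAD.Bridge
  Fermat.Agent.S28.Export Fermat.Agent.S36.BP Fermat.Agent.BAD.LevelQ.Mod
open Fermat.Agent.S18 (IsUnif)

/-- `v (a ^ (k + 1) - b ^ (k + 1)) ≤ v (a - b) * g ^ k` if `v a ≤ g`, `v b ≤ g`. -/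
theorem ntDepth_pow_sub_le {F Γ : Type*} [Field F] [LinearOrderedCommGroupWithZero Γ]
    (v : Valuation F Γ) (a b : F) (g : Γ) (ha : v a ≤ g) (hb : v b ≤ g) (k : ℕ) :
    v (a ^ (k + 1) - b ^ (k + 1)) ≤ v (a - b) * g ^ k := by
  rw [← (Commute.all a b).mul_geom_sum₂ (k + 1), map_mul]
  refine mul_le_mul_right ?_ _
  refine Valuation.map_sum_le v fun i hi => ?_
  have hi' : i ≤ k := Nat.lt_succ_iff.1 (Finset.mem_range.1 hi)
  have hk : g ^ k = g ^ i * g ^ (k + 1 - 1 - i) := by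
    rw [← pow_add]
    congr 1
    omega
  rw [map_mul, map_pow, map_pow, hk]
  exact mul_le_mul' (pow_le_pow_left₀ zero_le ha _) (pow_le_pow_left₀ zero_le hb _)

section NT

variable (A : ValuationSubring S44.Qb) {p : ℕ}

/-- NT-3: the depth of `τ` on the integers of `L`. -/
theorem depth_le (hp : p.Prime) (hA : A.LiesOverPrime p) (L : IntermediateField (K0 A) S44.Qb)
    {ϖ : L} {e : ℕ} {a : ℕ → K0 A} (hE : IsEis (A0 A) (p : K0 A) ϖ e a) {τ : S44.GQ}
    (hτ : τ ∈ Iner A) {δ : L} {c : ℕ} (h1 : τ (ϖ : S44.Qb) = ϖ * (1 + δ))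
    (h2 : (AL A L).valuation δ = (AL A L).valuation ϖ ^ c) :
    ∀ z ∈ L, z ∈ A → A.valuation (τ z - z) ≤ A.valuation (ϖ : S44.Qb) ^ (c + 1) := by
  intro z hzL hzA
  have hU : IsUnif (A0 A) (p : K0 A) := isUnif_A0 A p hp hA
  have hV : Ext (A0 A) (AL A L) := fun _ => Iff.rfl
  have hUL : IsUnif (AL A L) ϖ := eis_unif hU hE hV
  have hϖ0 : ϖ ≠ 0 := by
    intro h0
    apply hUL.inv_notMem
    rw [h0, inv_zero]
    exact (AL A L).zero_mem
  have hϖA : A.valuation (ϖ : S44.Qb) ≤ 1 := (A.valuation_le_one_iff _).2 hUL.mem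
  -- the valuation of `δ`
  have hδ : A.valuation (δ : S44.Qb) ≤ A.valuation (ϖ : S44.Qb) ^ c := by
    have hu : (AL A L).valuation (δ / ϖ ^ c) ≤ 1 := by
      rw [map_div₀, h2, map_pow, div_self]
      exact pow_ne_zero _ ((map_ne_zero _).2 hϖ0)
    have hu' : ((δ / ϖ ^ c : L) : S44.Qb) ∈ A := ((AL A L).valuation_le_one_iff _).1 hu
    have hu'' : A.valuation ((δ / ϖ ^ c : L) : S44.Qb) ≤ 1 := (A.valuation_le_one_iff _).2 hu'
    have hδe : (δ : S44.Qb) = ((δ / ϖ ^ c : L) : S44.Qb) * (ϖ : S44.Qb) ^ c := by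
      have : δ = δ / ϖ ^ c * ϖ ^ c := by rw [div_mul_cancel₀ _ (pow_ne_zero _ hϖ0)]
      conv_lhs => rw [this]
      push_cast
      rfl
    rw [hδe, map_mul, map_pow]
    exact mul_le_of_le_one_left' hu''
  have hδ1 : A.valuation (δ : S44.Qb) ≤ 1 := hδ.trans (pow_le_one₀ zero_le hϖA)
  have hτϖ : A.valuation (τ (ϖ : S44.Qb)) ≤ A.valuation (ϖ : S44.Qb) := by
    rw [h1, map_mul]
    refine mul_le_of_le_one_right' ?_
    exact (A.valuation.map_add _ _).trans (max_le (by rw [map_one]) hδ1)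
  have hsub : A.valuation (τ (ϖ : S44.Qb) - ϖ) ≤ A.valuation (ϖ : S44.Qb) ^ (c + 1) := by
    have : τ (ϖ : S44.Qb) - ϖ = (δ : S44.Qb) * ϖ := by rw [h1]; ring
    rw [this, map_mul, pow_succ]
    exact mul_le_mul_left hδ _
  -- the expansion of `z`
  obtain ⟨cc, hcc⟩ := hE.span ⟨z, hzL⟩
  have hmem : ∀ i < e, cc i ∈ A0 A := by
    rw [← eis_mem_iff hU hE hV, ← hcc]
    exact hzA
  have hz : z = ∑ i ∈ Finset.range e, ((cc i : K0 A) : S44.Qb) * (ϖ : S44.Qb) ^ i := by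
    have h3 := congrArg (fun x : L => (x : S44.Qb)) hcc
    simp only [esum] at h3
    rw [h3]
    push_cast
    rfl
  have hfix : ∀ i, τ ((cc i : K0 A) : S44.Qb) = cc i := fun i =>
    (mem_K0_iff A _).1 (cc i).2 τ hτ
  have hdiff : τ z - z = ∑ i ∈ Finset.range e,
      ((cc i : K0 A) : S44.Qb) * ((τ (ϖ : S44.Qb)) ^ i - (ϖ : S44.Qb) ^ i) := by
    rw [hz, map_sum, ← Finset.sum_sub_distrib]
    refine Finset.sum_congr rfl fun i _ => ?_
    rw [map_mul, map_pow, hfix, mul_sub]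
  rw [hdiff]
  refine Valuation.map_sum_le _ fun i hi => ?_
  have hci : A.valuation ((cc i : K0 A) : S44.Qb) ≤ 1 :=
    (A.valuation_le_one_iff _).2 (hmem i (Finset.mem_range.1 hi))
  rw [map_mul]
  refine (mul_le_of_le_one_left' hci).trans ?_
  rcases Nat.eq_zero_or_pos i with rfl | hipos
  · simp
  obtain ⟨k, rfl⟩ := Nat.exists_eq_succ_of_ne_zero hipos.ne'
  refine (ntDepth_pow_sub_le A.valuation _ _ _ hτϖ le_rfl k).trans ?_
  exact (mul_le_of_le_one_right' (pow_le_one₀ zero_le hϖA)).trans hsub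

/-- NT-8 -/
theorem root_A0 (hp : p.Prime) (hA : A.LiesOverPrime p) :
    ∀ c ∈ A0 A, ∃ b ∈ A0 A, (A0 A).valuation (c - b ^ p) < 1 := by
  intro c hc
  have := isAlgClosed_residueField_A0 A p hp hA
  obtain ⟨β, hβ⟩ := IsAlgClosed.exists_pow_nat_eq (IsLocalRing.residue (A0 A) ⟨c, hc⟩) hp.pos
  obtain ⟨b, rfl⟩ := IsLocalRing.residue_surjective β
  refine ⟨b, b.2, ?_⟩
  have h0 : IsLocalRing.residue (A0 A) (⟨c, hc⟩ - b ^ p) = 0 := by
    rw [map_sub, map_pow, hβ, sub_self]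
  rw [IsLocalRing.residue_eq_zero_iff, ValuationSubring.valuation_lt_one_iff] at h0
  exact h0

/-- NT-9: an element of inertia which moves an element of `K₀(E[p])` moves a point of `E[p]`. -/
theorem exists_moved_point (P : FreyPackage) {τ : S44.GQ} (hτ : τ ∈ Iner A) {z : S44.Qb}
    (hz : z ∈ LE P A) (h : τ z ≠ z) : ∃ x : S13.Vp P, τ • x ≠ x := by
  by_contra hcon
  have hall : ∀ x : S13.Vp P, τ • x = x := fun x => by
    by_contra hx
    exact hcon ⟨x, hx⟩
  exact h (hz τ ⟨hτ, hall⟩)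

end NT

end Fermat.Agent.S44.Depth.Inst

end
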