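/-
S44 / DEPTH-INST, block NT, node NT-1 (`exists_isEis`), proved directly from the library
`Lib/InertiaField/TotRam` (finite extensions of the inertia field are totally ramified).
-/
import Fermat.Agent.S44.Depth.Inst.Defs
import Fermat.Agent.Lib.InertiaField.TotRam.Field
import Fermat.Agent.Lib.InertiaField.TotRam.Conseq2

set_option autoImplicit false

noncomputable section

namespace Fermat.Agent.S44.Depth.Inst

open Fermat.Agent.Lib.InertiaField Polynomial

variable (A : ValuationSubring S44.Qb) {p : ℕ}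

/-- a field with bounded inertia orbits is `K0(θ)`. -/
theorem eis_exists_prim (L : IntermediateField (K0 A) S44.Qb)
    (n : ℕ) (hn : ∀ z ∈ L, ∃ S : Finset S44.Qb, S.card ≤ n ∧ ∀ σ ∈ Iner A, σ z ∈ S) :
    (∀ z ∈ L, (orb A z).card ≤ n) ∧ ∃ θ : S44.Qb, ∀ x, x ∈ L ↔ x ∈ adj A {θ} := by
  classical
  have h1 : ∀ z ∈ L, (orb A z).card ≤ n := by
    intro z hz
    obtain ⟨S, hS, hS'⟩ := hn z hz
    refine le_trans (Finset.card_le_card ?_) hS
    intro y hy
    obtain ⟨σ, hσ, rfl⟩ := mem_orb.1 hy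
    exact hS' σ hσ
  refine ⟨h1, ?_⟩
  have h2 : ∃ θ ∈ L, ∀ z ∈ L, (orb A z).card ≤ (orb A θ).card := by
    let P : ℕ → Prop := fun k => ∃ z ∈ L, (orb A z).card = k
    have h0 : P (orb A 0).card := ⟨0, L.zero_mem, rfl⟩
    obtain ⟨θ, hθL, hθ⟩ := Nat.findGreatest_spec (P := P) (h1 0 L.zero_mem) h0
    refine ⟨θ, hθL, fun z hz => ?_⟩
    rw [hθ]
    exact Nat.le_findGreatest (h1 z hz) ⟨z, hz, rfl⟩
  obtain ⟨θ, hθL, hθ⟩ := h2
  have hsub : ∀ S : Set S44.Qb, (∀ s ∈ S, s ∈ L) → ∀ x, x ∈ adj A S → x ∈ L := by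
    intro S hS x hx
    have hx' : x ∈ adjI A S := hx
    rw [← adjoin_eq_adjI] at hx'
    exact (IntermediateField.adjoin_le_iff.2 hS) hx'
  refine ⟨θ, fun x => ⟨fun hx => ?_, fun hx => hsub {θ} (by rintro s rfl; exact hθL) x hx⟩⟩
  obtain ⟨t, ht⟩ := exists_prim_pair A θ x
  have htL : t ∈ L := by
    refine hsub {θ, x} ?_ t ?_
    · rintro s (rfl | rfl)
      · exact hθL
      · exact hx
    · intro σ hσ hs
      exact (ht σ hσ).2 ⟨hs θ (by simp), hs x (by simp)⟩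
  have hθt : θ ∈ adj A {t} := mem_adj_singleton.2 fun σ hσ h => ((ht σ hσ).1 h).1
  have htθ : t ∈ adj A {θ} := mem_adj_of_card_le hθt (hθ t htL)
  refine mem_adj_singleton.2 fun σ hσ h => ?_
  exact ((ht σ hσ).1 (mem_adj_singleton.1 htθ σ hσ h)).2

/-- NT-1: a field `L ⊇ K₀` all of whose elements have at most `n` conjugates under inertia is
generated over `K₀` by a root of an Eisenstein polynomial of degree `e ≤ n`. -/
theorem exists_isEis (hp : p.Prime) (hA : A.LiesOverPrime p) (L : IntermediateField (K0 A) S44.Qb)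
    (n : ℕ) (hn : ∀ z ∈ L, ∃ S : Finset S44.Qb, S.card ≤ n ∧ ∀ σ ∈ Iner A, σ z ∈ S) :
    ∃ (ϖ : L) (e : ℕ) (a : ℕ → K0 A), e ≤ n ∧ IsEis (A0 A) (p : K0 A) ϖ e a := by
  classical
  obtain ⟨h1, θ, hθ⟩ := eis_exists_prim A L n hn
  obtain ⟨ϖ, e, hT, hst⟩ := exists_isTotUnif_simple hp hA θ
  have hadj : ∀ x, x ∈ L ↔ x ∈ adj A {ϖ} := by
    intro x
    rw [hθ x, mem_adj_singleton, mem_adj_singleton]
    exact ⟨fun h σ hσ h' => h σ hσ ((hst σ hσ).1 h'), fun h σ hσ h' => h σ hσ ((hst σ hσ).2 h')⟩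
  have hϖL : ϖ ∈ L := (hadj ϖ).2 (self_mem_adj A ϖ)
  have hp0 : (p : S44.Qb) ≠ 0 := Nat.cast_ne_zero.2 hp.ne_zero
  let a : ℕ → K0 A := fun i =>
    if i < e then -⟨(minP A ϖ).coeff i, coeff_minP_mem_K0 A ϖ i⟩ else 0
  have ha : ∀ i, i < e → ((a i : K0 A) : S44.Qb) = -(minP A ϖ).coeff i := by
    intro i hi
    simp only [a, if_pos hi]
    rfl
  have hsum : ∀ c : ℕ → K0 A, ((esum (⟨ϖ, hϖL⟩ : L) e c : L) : S44.Qb) =
      ∑ i ∈ Finset.range e, (c i : S44.Qb) * ϖ ^ i := by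
    intro c
    rw [esum]
    rw [← IntermediateField.algebraMap_apply, map_sum]
    refine Finset.sum_congr rfl fun i _ => ?_
    rw [map_mul, map_pow]
    rfl
  refine ⟨⟨ϖ, hϖL⟩, e, a, hT.card ▸ h1 ϖ hϖL, ⟨hT.pos, ?_, ?_, ?_, ?_⟩⟩
  · intro i
    rw [mem_A0_iff]
    by_cases hi : i < e
    · have h := hT.coeff_minP_div_mem hp hA hi
      have : (((a i / (p : K0 A) : K0 A)) : S44.Qb) = -((minP A ϖ).coeff i / (p : S44.Qb)) := by
        rw [neg_div', ← ha i hi]
        rfl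
      rw [this]
      exact neg_mem h
    · simp only [a, if_neg hi, zero_div]
      exact A.zero_mem
  · have hv := hT.val_coeff_zero_minP
    have hc : (((a 0 / (p : K0 A) : K0 A)) : S44.Qb) = -((minP A ϖ).coeff 0 / (p : S44.Qb)) := by
      rw [neg_div', ← ha 0 hT.pos]
      rfl
    have hval : A.valuation (((a 0 / (p : K0 A) : K0 A)) : S44.Qb) = 1 := by
      rw [hc, Valuation.map_neg, map_div₀, hv, div_self]
      exact (Valuation.ne_zero_iff _).2 hp0
    have hmem : (a 0 / (p : K0 A) : K0 A) ∈ A0 A := by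
      rw [mem_A0_iff, ← ValuationSubring.valuation_le_one_iff, hval]
    by_contra hne
    have hlt : (A0 A).valuation (a 0 / (p : K0 A)) < 1 :=
      lt_of_le_of_ne ((ValuationSubring.valuation_le_one_iff _ _).2 hmem) hne
    have h3 : (a 0 / (p : K0 A) : K0 A) ∈ (A0 A).nonunits :=
      (ValuationSubring.mem_nonunits_iff _).2 hlt
    rw [mem_nonunits_A0_iff, ValuationSubring.mem_nonunits_iff, hval] at h3
    exact lt_irrefl _ h3
  · apply Subtype.ext
    rw [hsum]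
    have h0 := eval_self_minP A ϖ
    rw [eval_eq_sum_range, natDegree_minP, hT.card, Finset.sum_range_succ] at h0
    have hlead : (minP A ϖ).coeff e = 1 := by
      have := (monic_minP A ϖ).coeff_natDegree
      rwa [natDegree_minP, hT.card] at this
    rw [hlead, one_mul] at h0
    have h4 : ∑ i ∈ Finset.range e, ((a i : K0 A) : S44.Qb) * ϖ ^ i =
        -∑ i ∈ Finset.range e, (minP A ϖ).coeff i * ϖ ^ i := by
      rw [← Finset.sum_neg_distrib]
      refine Finset.sum_congr rfl fun i hi => ?_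
      rw [ha i (Finset.mem_range.1 hi), neg_mul]
    rw [h4]
    show ϖ ^ e = _
    linear_combination h0
  · intro z
    obtain ⟨c, hc, hz⟩ := hT.expand_K0 hp hA ((hadj z).1 z.2)
    refine ⟨fun i => ⟨c i, hc i⟩, Subtype.ext ?_⟩
    rw [hsum]
    exact hz

end Fermat.Agent.S44.Depth.Inst

end
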