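/-
S44 / DEPTH (architect helper219), node NT-1b (owner helper68): the integers `A ∩ L` of a finite
extension `L` of the inertia field `K0 A` are a finite module over `A0 A = A ∩ K0 A`.
-/
import Fermat.Agent.S44.Depth.Inst.Defs
import Fermat.Agent.Lib.InertiaField.Integral
import Fermat.Agent.Lib.InertiaField.Unram

set_option autoImplicit false

noncomputable section

namespace Fermat.Agent.S44.Depth.Inst

open ModularCurve AlgebraicCurve Fermat.Agent.S24 Fermat.Agent.GAL Fermat.Agent.S44.X
  Fermat.Agent.Lib.InertiaField Fermat.Agent.S18.Descent Fermat.Agent.BAD.Bridge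
  Fermat.Agent.S28.Export
open Fermat.Agent.S18 (IsUnif)

variable (A : ValuationSubring S44.Qb) {p : ℕ}

/-- the structure map `A0 A → L`. -/
private def finGenHom (L : IntermediateField (K0 A) S44.Qb) : A0 A →+* L :=
  (algebraMap (K0 A) L).comp (A0 A).subtype

/-- every element of `A ∩ L` is integral over `A0 A`. -/
private theorem finGen_isIntegralElem (L : IntermediateField (K0 A) S44.Qb) {z : L}
    (hz : z ∈ AL A L) : (finGenHom A L).IsIntegralElem z := by
  obtain ⟨f, hf, hc, h0⟩ := exists_monic_of_mem A (x := (z : S44.Qb)) hz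
  let φ : A0 A →+* S44.Qb := (algebraMap L S44.Qb).comp (finGenHom A L)
  have hl : f ∈ Polynomial.lifts φ := by
    rw [Polynomial.lifts_iff_coeff_lifts]
    intro i
    exact ⟨⟨⟨f.coeff i, (hc i).1⟩, (hc i).2⟩, rfl⟩
  obtain ⟨g, hg, -, hmon⟩ := Polynomial.lifts_and_natDegree_eq_and_monic hl hf
  refine ⟨g, hmon, ?_⟩
  apply (algebraMap L S44.Qb).injective
  rw [map_zero, Polynomial.hom_eval₂, ← Polynomial.eval_map]
  change Polynomial.eval (z : S44.Qb) (g.map φ) = 0
  rw [hg, h0]

/-- NT-1b: the integers of `L` are a finite module over `A0 A`. -/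
theorem exists_fin_gen (hp : p.Prime) (hA : A.LiesOverPrime p)
    (L : IntermediateField (K0 A) S44.Qb) [FiniteDimensional (K0 A) L] :
    ∃ T : Finset L, ∀ z ∈ AL A L, ∃ c : L → K0 A, (∀ t, c t ∈ A0 A) ∧
      z = ∑ t ∈ T, algebraMap (K0 A) L (c t) * t := by
  classical
  have : IsDiscreteValuationRing (A0 A) := isDiscreteValuationRing_A0 A p hp hA
  let _ : Algebra (A0 A) L := (finGenHom A L).toAlgebra
  have : IsScalarTower (A0 A) (K0 A) L := IsScalarTower.of_algebraMap_eq (fun _ => rfl)
  have : Module.Finite (A0 A) (integralClosure (A0 A) L) :=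
    IsIntegralClosure.finite (A0 A) (K0 A) L (integralClosure (A0 A) L)
  obtain ⟨S, hS⟩ := (Module.Finite.fg_top (R := A0 A) (M := integralClosure (A0 A) L))
  let ι : integralClosure (A0 A) L →ₗ[A0 A] L := (integralClosure (A0 A) L).val.toLinearMap
  refine ⟨S.image ι, fun z hz => ?_⟩
  have hzC : z ∈ integralClosure (A0 A) L := finGen_isIntegralElem A L hz
  have hmem : z ∈ Submodule.span (A0 A) ((S.image ι : Finset L) : Set L) := by
    rw [Finset.coe_image, ← Submodule.map_span, hS]
    exact ⟨⟨z, hzC⟩, Submodule.mem_top, rfl⟩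
  obtain ⟨f, -, hf⟩ := Submodule.mem_span_finset.1 hmem
  refine ⟨fun t => (f t : K0 A), fun t => (f t).2, ?_⟩
  rw [← hf]
  exact Finset.sum_congr rfl fun t _ => (Algebra.smul_def (f t) t).symm

end Fermat.Agent.S44.Depth.Inst

end
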