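/-
S44 / DEPTH-NT1a (architect helper219; owner helper193).
A field `L ⊇ K₀` all of whose elements have at most `n` conjugates under inertia is finite
over `K₀`.
-/
import Fermat.Agent.S44.Depth.Inst.Defs
import Fermat.Agent.GAL.KLLevel
import Fermat.Agent.Lib.InertiaField.TotRam.Field

set_option autoImplicit false

noncomputable section

namespace Fermat.Agent.S44.Depth.Inst

open ModularCurve AlgebraicCurve Fermat.Agent.S24 Fermat.Agent.GAL Fermat.Agent.S44.X
  Fermat.Agent.Lib.InertiaField Fermat.Agent.S18.Descent Fermat.Agent.BAD.Bridge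
  Fermat.Agent.S28.Export Fermat.Agent.S36.BP Fermat.Agent.BAD.LevelQ.Mod
open Fermat.Agent.S18 (IsUnif)

section NT

variable (A : ValuationSubring S44.Qb) {p : ℕ}

open IntermediateField in
theorem ntFin_finrank_adjoin (z : S44.Qb) :
    Module.finrank (K0 A) (IntermediateField.adjoin (K0 A) {z}) = (orb A z).card :=
  finrank_eq_card_orb (A := A) (IntermediateField.adjoin (K0 A) {z})
    (fun x => by rw [adjoin_eq_adjI, mem_adjI])

theorem ntFin_finrank_le (z : S44.Qb) (n : ℕ)
    (hn : ∃ S : Finset S44.Qb, S.card ≤ n ∧ ∀ σ ∈ Iner A, σ z ∈ S) :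
    Module.finrank (K0 A) (IntermediateField.adjoin (K0 A) {z}) ≤ n := by
  obtain ⟨S, hS, hz⟩ := hn
  rw [ntFin_finrank_adjoin]
  refine le_trans (Finset.card_le_card ?_) hS
  intro y hy
  obtain ⟨σ, hσ, rfl⟩ := mem_orb.1 hy
  exact hz σ hσ

/-- NT-1a -/
theorem finite_of_orbit (L : IntermediateField (K0 A) S44.Qb)
    (n : ℕ) (hn : ∀ z ∈ L, ∃ S : Finset S44.Qb, S.card ≤ n ∧ ∀ σ ∈ Iner A, σ z ∈ S) :
    FiniteDimensional (K0 A) L := by
  classical
  haveI : Algebra.IsAlgebraic (K0 A) S44.Qb := inferInstance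
  have hint : ∀ z : S44.Qb, IsIntegral (K0 A) z := fun z =>
    (Algebra.IsAlgebraic.isAlgebraic z).isIntegral
  -- the set of degrees
  let T : Set ℕ := {m | ∃ z ∈ L, Module.finrank (K0 A) (IntermediateField.adjoin (K0 A) {z}) = m}
  have hTne : T.Nonempty := ⟨_, 0, L.zero_mem, rfl⟩
  have hTbdd : BddAbove T := ⟨n, by
    rintro m ⟨z, hz, rfl⟩
    exact ntFin_finrank_le A z n (hn z hz)⟩
  obtain ⟨z₀, hz₀, hz₀m⟩ := Nat.sSup_mem hTne hTbdd
  have hmax : ∀ z ∈ L, Module.finrank (K0 A) (IntermediateField.adjoin (K0 A) {z}) ≤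
      Module.finrank (K0 A) (IntermediateField.adjoin (K0 A) {z₀}) := by
    intro z hz
    rw [hz₀m]
    exact le_csSup hTbdd ⟨z, hz, rfl⟩
  have hL : L = IntermediateField.adjoin (K0 A) {z₀} := by
    apply le_antisymm
    · intro y hy
      obtain ⟨γ, hγ⟩ := Field.primitive_element_inf_aux (K0 A) z₀ y
      have hγL : γ ∈ L := by
        have h1 : IntermediateField.adjoin (K0 A) {z₀, y} ≤ L := by
          rw [IntermediateField.adjoin_le_iff]
          rintro x (rfl | rfl)
          · exact hz₀
          · exact hy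
        apply h1
        rw [hγ]
        exact IntermediateField.mem_adjoin_simple_self _ _
      have hle : IntermediateField.adjoin (K0 A) {z₀} ≤ IntermediateField.adjoin (K0 A) {γ} := by
        rw [← hγ]
        exact IntermediateField.adjoin.mono _ _ _ (by simp)
      haveI : FiniteDimensional (K0 A) (IntermediateField.adjoin (K0 A) {γ}) :=
        IntermediateField.adjoin.finiteDimensional (hint γ)
      have heq := IntermediateField.eq_of_le_of_finrank_le hle (hmax γ hγL)
      rw [heq, ← hγ]
      exact IntermediateField.subset_adjoin _ _ (by simp)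
    · rw [IntermediateField.adjoin_simple_le_iff]
      exact hz₀
  rw [hL]
  exact IntermediateField.adjoin.finiteDimensional (hint z₀)

end NT

end Fermat.Agent.S44.Depth.Inst
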