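/-
S44 / DEPTH / instance, block NT (architect helper219), node NT-5 (helper272):
the field `K₀(μ_p)`: orbit bound, stability under inertia, inertia moves `μ_p`.
-/
import Fermat.Agent.S44.Depth.Inst.Defs
import Fermat.Agent.S44.ES.TB

set_option autoImplicit false

noncomputable section

namespace Fermat.Agent.S44.Depth.Inst

open ModularCurve AlgebraicCurve Fermat.Agent.S24 Fermat.Agent.GAL Fermat.Agent.S44.X
  Fermat.Agent.Lib.InertiaField Fermat.Agent.S18.Descent Fermat.Agent.BAD.Bridge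
  Fermat.Agent.S28.Export
open Fermat.Agent.S18 (IsUnif)

section NT

variable (A : ValuationSubring S44.Qb) {p : ℕ}

private theorem mu_exists_prim (hp : p.Prime) : ∃ ζ₀ : S44.Qb, IsPrimitiveRoot ζ₀ p := by
  haveI : NeZero p := ⟨hp.ne_zero⟩
  exact HasEnoughRootsOfUnity.exists_primitiveRoot S44.Qb p

private theorem mu_fix_all (hp : p.Prime) {ζ₀ : S44.Qb} (h₀ : IsPrimitiveRoot ζ₀ p) {σ : S44.GQ}
    (hσ : σ ζ₀ = ζ₀) (ζ : S44.Qb) (hζ : ζ ^ p = 1) : σ ζ = ζ := by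
  haveI : NeZero p := ⟨hp.ne_zero⟩
  obtain ⟨i, -, rfl⟩ := h₀.eq_pow_of_pow_eq_one hζ
  rw [map_pow, hσ]

/-- NT-5a -/
theorem orbit_Lmu (hp : p.Prime) : ∀ z ∈ Lmu A p,
    ∃ S : Finset S44.Qb, S.card ≤ p - 1 ∧ ∀ σ ∈ Iner A, σ z ∈ S := by
  classical
  haveI : NeZero p := ⟨hp.ne_zero⟩
  intro z hz
  obtain ⟨ζ₀, h₀⟩ := mu_exists_prim hp
  let T : Finset S44.Qb := (Finset.range (p - 1)).image (fun i => ζ₀ ^ (i + 1))
  have hT : ∀ σ : S44.GQ, σ ζ₀ ∈ T := by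
    intro σ
    have h1 : (σ ζ₀) ^ p = 1 := by rw [← map_pow, h₀.pow_eq_one, map_one]
    obtain ⟨i, hi, hi'⟩ := h₀.eq_pow_of_pow_eq_one h1
    have hi0 : i ≠ 0 := by
      rintro rfl
      rw [pow_zero] at hi'
      have : ζ₀ = 1 := σ.injective (by rw [← hi', map_one])
      exact h₀.ne_one hp.one_lt this
    refine Finset.mem_image.2 ⟨i - 1, Finset.mem_range.2 (by omega), ?_⟩
    rw [Nat.sub_add_cancel (Nat.pos_of_ne_zero hi0), hi']
  let f : S44.Qb → S44.Qb := fun t =>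
    if h : ∃ σ ∈ Iner A, σ ζ₀ = t then (Classical.choose h) z else z
  refine ⟨T.image f, Finset.card_image_le.trans (Finset.card_image_le.trans (by simp)), ?_⟩
  intro σ hσ
  refine Finset.mem_image.2 ⟨σ ζ₀, hT σ, ?_⟩
  have hex : ∃ τ ∈ Iner A, τ ζ₀ = σ ζ₀ := ⟨σ, hσ, rfl⟩
  show (if h : ∃ τ ∈ Iner A, τ ζ₀ = σ ζ₀ then (Classical.choose h) z else z) = σ z
  rw [dif_pos hex]
  obtain ⟨hτ, hτζ⟩ := Classical.choose_spec hex
  set τ := Classical.choose hex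
  have hmem : σ⁻¹ * τ ∈ Hmu A p :=
    ⟨mul_mem (inv_mem hσ) hτ, fun ζ hζ => mu_fix_all hp h₀ (by
      rw [AlgEquiv.mul_apply, hτζ, ← AlgEquiv.mul_apply, inv_mul_cancel, AlgEquiv.one_apply]) ζ hζ⟩
  have h2 := congrArg σ (hz _ hmem)
  rw [AlgEquiv.mul_apply, ← AlgEquiv.mul_apply σ, mul_inv_cancel, AlgEquiv.one_apply] at h2
  exact h2

/-- NT-6a -/
theorem stable_Lmu : ∀ σ ∈ Iner A, ∀ z ∈ Lmu A p, σ z ∈ Lmu A p := by
  intro σ hσ z hz h hh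
  have hmem : σ⁻¹ * h * σ ∈ Hmu A p :=
    ⟨mul_mem (mul_mem (inv_mem hσ) hh.1) hσ, fun ζ hζ => by
      rw [AlgEquiv.mul_apply, AlgEquiv.mul_apply, hh.2 (σ ζ) (by rw [← map_pow, hζ, map_one]),
        ← AlgEquiv.mul_apply, inv_mul_cancel, AlgEquiv.one_apply]⟩
  have h2 := congrArg σ (hz _ hmem)
  rw [AlgEquiv.mul_apply, AlgEquiv.mul_apply, ← AlgEquiv.mul_apply σ, mul_inv_cancel,
    AlgEquiv.one_apply] at h2
  exact h2

/-- NT-7: inertia acts non trivially on `μ_p`. -/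
theorem exists_moving_mu (hp : p.Prime) (hp3 : 3 ≤ p) (hA : A.LiesOverPrime p) :
    ∃ σ ∈ Iner A, ∃ m : ℕ, (∀ ζ : S44.Qb, ζ ^ p = 1 → σ ζ = ζ ^ m) ∧ ¬ (p : ℤ) ∣ (m : ℤ) - 1 := by
  haveI : NeZero p := ⟨hp.ne_zero⟩
  obtain ⟨ζ₀, h₀⟩ := mu_exists_prim hp
  have hmove : ∃ σ ∈ Iner A, σ ζ₀ ≠ ζ₀ := by
    by_contra hcon
    push Not at hcon
    have hK : ζ₀ ∈ K0 A := (mem_K0_iff A ζ₀).2 hcon
    have h1 : 1 - ζ₀ ∈ K0 A := sub_mem (one_mem _) hK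
    have hne : 1 - ζ₀ ≠ 0 := sub_ne_zero.2 (h₀.ne_one hp.one_lt).symm
    obtain ⟨k, u, -, hu, hu', hx⟩ := exists_zpow_mul_unit A p hp hA h1 hne
    have hvu : A.valuation u = 1 := by
      refine le_antisymm ((A.valuation_le_one_iff _).2 hu) ?_
      have h := (A.valuation_le_one_iff _).2 hu'
      rw [map_inv₀] at h
      by_contra hlt
      rw [not_le] at hlt
      have hu0 : A.valuation u ≠ 0 := by
        intro h0
        have : u = 0 := (map_eq_zero _).1 h0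
        rw [this, mul_zero] at hx
        exact hne hx
      exact absurd h (not_le.2 ((one_lt_inv₀ (zero_lt_iff.2 hu0)).2 hlt))
    have hv : A.valuation (1 - ζ₀) = A.valuation (p : S44.Qb) ^ k := by
      rw [hx, map_mul, map_zpow₀, hvu, mul_one]
    have h2 := S44.ES.val_natCast_eq_pow A hp h₀
    rw [hv, ← zpow_natCast, ← zpow_mul] at h2
    have h3 : (1 : ℤ) = k * ((p - 1 : ℕ) : ℤ) :=
      S44.ES.zpow_val_injective hA hp.ne_zero (by rw [zpow_one]; exact h2)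
    have h4 : ((p - 1 : ℕ) : ℤ) ∣ 1 := ⟨k, by rw [mul_comm]; exact h3⟩
    have h5 := Int.le_of_dvd one_pos h4
    omega
  obtain ⟨σ, hσ, hne⟩ := hmove
  have h1 : (σ ζ₀) ^ p = 1 := by rw [← map_pow, h₀.pow_eq_one, map_one]
  obtain ⟨m, hm, hm'⟩ := h₀.eq_pow_of_pow_eq_one h1
  refine ⟨σ, hσ, m, ?_, ?_⟩
  · intro ζ hζ
    obtain ⟨i, -, rfl⟩ := h₀.eq_pow_of_pow_eq_one hζ
    rw [map_pow, ← hm', ← pow_mul, ← pow_mul, mul_comm]
  · intro hd
    have h0 : (m : ℤ) - 1 = 0 :=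
      Int.eq_zero_of_abs_lt_dvd hd (abs_lt.2 ⟨by omega, by omega⟩)
    have hm1 : m = 1 := by omega
    rw [hm1, pow_one] at hm'
    exact hne hm'.symm

end NT

end Fermat.Agent.S44.Depth.Inst

end
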