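/-
S44 / DEPTH, the instance, block NT (architect helper219), task DEPTH-NTO:
a root of an Eisenstein polynomial of degree `e` has at least `e` conjugates under inertia; orbit bound.
-/
import Fermat.Agent.S44.Depth.Inst.Defs
import Fermat.Agent.S44.Depth.BC.Eis
import Fermat.Agent.BAD.Bridge.BaseHyp

set_option autoImplicit false

noncomputable section

namespace Fermat.Agent.S44.Depth.Inst

open ModularCurve AlgebraicCurve Fermat.Agent.S24 Fermat.Agent.GAL Fermat.Agent.S44.X
  Fermat.Agent.Lib.InertiaField Fermat.Agent.S18.Descent Fermat.Agent.BAD.Bridge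
  Fermat.Agent.S28.Export Fermat.Agent.S36.BP
open Fermat.Agent.S18 (IsUnif)

section NT

variable (A : ValuationSubring S44.Qb) {p : ℕ}

/-- the polynomial of a finite set stable under inertia has coefficients in `K0 A`. -/
private theorem ntOrbit_coeff_mem (O : Finset S44.Qb) (hO : ∀ σ ∈ Iner A, ∀ y ∈ O, σ y ∈ O)
    (i : ℕ) : (∏ y ∈ O, (Polynomial.X - Polynomial.C y)).coeff i ∈ K0 A := by
  classical
  rw [mem_K0_iff]
  intro σ hσ
  have himg : O.image σ = O := by
    apply Finset.eq_of_subset_of_card_le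
    · intro y hy
      obtain ⟨x, hx, rfl⟩ := Finset.mem_image.1 hy
      exact hO σ hσ x hx
    · rw [Finset.card_image_of_injective _ σ.injective]
  have hmap : (∏ y ∈ O, (Polynomial.X - Polynomial.C y)).map (σ : S44.Qb →+* S44.Qb) =
      ∏ y ∈ O, (Polynomial.X - Polynomial.C y) := by
    rw [Polynomial.map_prod]
    conv_rhs => rw [← himg, Finset.prod_image fun x _ y _ h => σ.injective h]
    refine Finset.prod_congr rfl fun y _ => ?_
    rw [Polynomial.map_sub, Polynomial.map_X, Polynomial.map_C]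
    rfl
  have h1 := congrArg (fun P => Polynomial.coeff P i) hmap
  simp only [Polynomial.coeff_map] at h1
  exact h1

/-- NT-O: a root of an Eisenstein polynomial of degree `e` has at least `e` conjugates. -/
theorem le_card_of_isEis (hp : p.Prime) (hA : A.LiesOverPrime p)
    (L : IntermediateField (K0 A) S44.Qb) {ϖ : L} {e : ℕ} {a : ℕ → K0 A}
    (hE : IsEis (A0 A) (p : K0 A) ϖ e a) (S : Finset S44.Qb)
    (hS : ∀ σ ∈ Iner A, σ (ϖ : S44.Qb) ∈ S) : e ≤ S.card := by
  classical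
  set O : Finset S44.Qb := S.filter (fun y => ∃ σ ∈ Iner A, σ (ϖ : S44.Qb) = y) with hOdef
  have hOS : O.card ≤ S.card := Finset.card_filter_le _ _
  refine le_trans ?_ hOS
  by_contra hlt
  rw [not_le] at hlt
  have hO : ∀ σ ∈ Iner A, ∀ y ∈ O, σ y ∈ O := by
    intro σ hσ y hy
    obtain ⟨-, τ, hτ, rfl⟩ := Finset.mem_filter.1 hy
    have h1 : σ (τ (ϖ : S44.Qb)) = (σ * τ) (ϖ : S44.Qb) := rfl
    rw [h1]
    exact Finset.mem_filter.2 ⟨hS _ (mul_mem hσ hτ), σ * τ, mul_mem hσ hτ, rfl⟩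
  have hϖO : (ϖ : S44.Qb) ∈ O :=
    Finset.mem_filter.2 ⟨hS 1 (one_mem _), 1, one_mem _, rfl⟩
  set f : Polynomial S44.Qb := ∏ y ∈ O, (Polynomial.X - Polynomial.C y) with hf
  have hmonic : f.Monic := Polynomial.monic_prod_of_monic _ _ fun y _ => Polynomial.monic_X_sub_C y
  have hdeg : f.natDegree = O.card := by
    rw [hf, Polynomial.natDegree_prod_of_monic _ _ fun y _ => Polynomial.monic_X_sub_C y]
    simp
  have heval : f.eval (ϖ : S44.Qb) = 0 := by
    rw [hf, Polynomial.eval_prod]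
    exact Finset.prod_eq_zero hϖO (by simp)
  let c : ℕ → K0 A := fun i => ⟨f.coeff i, ntOrbit_coeff_mem A O hO i⟩
  have hsum : esum ϖ e c = 0 := by
    apply Subtype.ext
    have h1 : ((esum ϖ e c : L) : S44.Qb) =
        ∑ i ∈ Finset.range e, f.coeff i * (ϖ : S44.Qb) ^ i := by
      unfold esum
      rw [← IntermediateField.coe_val, map_sum]
      refine Finset.sum_congr rfl fun i _ => ?_
      rw [map_mul, map_pow]
      rfl
    rw [h1, ← Polynomial.eval_eq_sum_range' (by rw [hdeg]; exact hlt), heval]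
    rfl
  have h2 := eis_indep (V := AL A L) (isUnif_A0 A p hp hA) hE (fun z => Iff.rfl) c hsum O.card hlt
  have h3 : f.coeff O.card = 0 := congrArg Subtype.val h2
  rw [← hdeg, hmonic.coeff_natDegree] at h3
  exact one_ne_zero h3

/-- NT-4: orbit bound. -/
theorem orbit_bound {X : Type*} [MulAction S44.GQ X] (x₀ : X) (T : Finset X)
    (hT : ∀ σ ∈ Iner A, σ • x₀ ∈ T) (z : S44.Qb)
    (hz : ∀ σ ∈ Iner A, σ • x₀ = x₀ → σ z = z) :
    ∃ S : Finset S44.Qb, S.card ≤ T.card ∧ ∀ σ ∈ Iner A, σ z ∈ S := by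
  classical
  refine ⟨T.image (fun y => if h : ∃ σ ∈ Iner A, σ • x₀ = y then (Classical.choose h) z else 0),
    Finset.card_image_le, fun σ hσ => ?_⟩
  refine Finset.mem_image.2 ⟨σ • x₀, hT σ hσ, ?_⟩
  have h : ∃ σ' ∈ Iner A, σ' • x₀ = σ • x₀ := ⟨σ, hσ, rfl⟩
  rw [dif_pos h]
  obtain ⟨h1, h2⟩ := Classical.choose_spec h
  set σ' := Classical.choose h
  have h3 : (σ'⁻¹ * σ) • x₀ = x₀ := by
    rw [mul_smul, ← h2, inv_smul_smul]
  have h4 := hz _ (mul_mem (inv_mem h1) hσ) h3
  have h5 : σ' ((σ'⁻¹ * σ) z) = σ z := by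
    rw [← AlgEquiv.mul_apply, mul_inv_cancel_left]
  rw [← h5, h4]

end NT

end Fermat.Agent.S44.Depth.Inst

end
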