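/-
S44 / DEPTH, the instance, block NT, node NT-1c (task DEPTH-NT1c): the valuation of a field
`L ⊇ K₀` all of whose elements have at most `n` conjugates under inertia is discrete.

The norm of `z ∈ L` (product over the inertia orbit, `d ≤ n` elements) lies in `K₀`, so
`v(z) ^ d ∈ v(p) ^ ℤ` and `v(z) ^ (n!) = v(p) ^ ν`.  The possible `ν` form a subgroup `g ℤ` of `ℤ`
containing `n!`; an element `ϖ` with `ν = g` is a uniformiser.
-/
import Fermat.Agent.S44.Depth.Inst.Defs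
import Fermat.Agent.S44.ES.Tame
import Fermat.Agent.S36.BP.Rad

set_option autoImplicit false

noncomputable section

namespace Fermat.Agent.S44.Depth.Inst

open ModularCurve AlgebraicCurve Fermat.Agent.S24 Fermat.Agent.GAL Fermat.Agent.S44.X
  Fermat.Agent.Lib.InertiaField Fermat.Agent.S18.Descent Fermat.Agent.BAD.Bridge
  Fermat.Agent.S28.Export Fermat.Agent.S36.BP
open Fermat.Agent.S18 (IsUnif)

variable (A : ValuationSubring S44.Qb) {p : ℕ}

/-- the valuation of an element with at most `n` conjugates under inertia. -/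
theorem unif_exists_pow_eq (hp : p.Prime) (hA : A.LiesOverPrime p) {z : S44.Qb} (hz : z ≠ 0)
    {n : ℕ} (S : Finset S44.Qb) (hS : S.card ≤ n) (horb : ∀ σ ∈ Iner A, σ z ∈ S) :
    ∃ d : ℕ, 0 < d ∧ d ≤ n ∧ ∃ k : ℤ, A.valuation z ^ d = A.valuation (p : S44.Qb) ^ k := by
  classical
  let O : Finset S44.Qb := S.filter fun y => ∃ σ ∈ Iner A, σ z = y
  have hO : ∀ y : S44.Qb, y ∈ O ↔ ∃ σ ∈ Iner A, σ z = y := by
    intro y
    simp only [O, Finset.mem_filter]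
    constructor
    · rintro ⟨-, h⟩
      exact h
    · rintro ⟨σ, hσ, rfl⟩
      exact ⟨horb σ hσ, σ, hσ, rfl⟩
  have hcard : O.card ≤ n := (Finset.card_filter_le _ _).trans hS
  have hcard0 : 0 < O.card := Finset.card_pos.mpr ⟨z, (hO z).mpr ⟨1, (Iner A).one_mem, rfl⟩⟩
  set P : S44.Qb := ∏ y ∈ O, y with hP
  have hP0 : P ≠ 0 := by
    rw [hP, Finset.prod_ne_zero_iff]
    intro y hy
    obtain ⟨σ, -, rfl⟩ := (hO y).mp hy
    exact (map_ne_zero_iff σ σ.injective).mpr hz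
  have hPfix : ∀ ρ ∈ Iner A, ρ P = P := by
    intro ρ hρ
    have himg : O.image ρ = O := by
      ext y
      rw [Finset.mem_image]
      constructor
      · rintro ⟨x, hx, rfl⟩
        obtain ⟨σ, hσ, rfl⟩ := (hO x).mp hx
        exact (hO _).mpr ⟨ρ * σ, (Iner A).mul_mem hρ hσ, rfl⟩
      · intro hy
        obtain ⟨σ, hσ, rfl⟩ := (hO y).mp hy
        refine ⟨(ρ⁻¹ * σ) z, (hO _).mpr ⟨ρ⁻¹ * σ, (Iner A).mul_mem ((Iner A).inv_mem hρ) hσ, rfl⟩,
          ?_⟩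
        rw [← AlgEquiv.mul_apply, mul_inv_cancel_left]
    have h1 : ∏ y ∈ O.image ρ, y = ∏ y ∈ O, ρ y :=
      Finset.prod_image (fun a _ b _ hab => ρ.injective hab)
    rw [hP, map_prod, ← h1, himg]
  have hPval : A.valuation P = A.valuation z ^ O.card := by
    rw [hP, map_prod, Finset.prod_congr rfl (g := fun _ => A.valuation z), Finset.prod_const]
    intro y hy
    obtain ⟨σ, hσ, rfl⟩ := (hO y).mp hy
    exact S44.ES.val_apply_eq A hσ z
  obtain ⟨k, u, -, hu, hu', hPu⟩ := exists_zpow_mul_unit A p hp hA ((mem_K0_iff A P).mpr hPfix) hP0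
  have hu0 : u ≠ 0 := by
    rintro rfl
    rw [mul_zero] at hPu
    exact hP0 hPu
  have hu1 : A.valuation u = 1 := val_eq_one_iff.2 ⟨hu0, hu, hu'⟩
  refine ⟨O.card, hcard0, hcard, k, ?_⟩
  rw [← hPval, hPu, map_mul, map_zpow₀, hu1, mul_one]

/-- NT-1c: the valuation of `L` is discrete. -/
theorem exists_unif (hp : p.Prime) (hA : A.LiesOverPrime p) (L : IntermediateField (K0 A) S44.Qb)
    (n : ℕ) (hn : ∀ z ∈ L, ∃ S : Finset S44.Qb, S.card ≤ n ∧ ∀ σ ∈ Iner A, σ z ∈ S) :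
    ∃ (ϖ : L) (e : ℕ), 0 < e ∧ IsUnif (AL A L) ϖ ∧
      (AL A L).valuation ϖ ^ e = (AL A L).valuation (p : L) := by
  have hp0 : (p : S44.Qb) ≠ 0 := Nat.cast_ne_zero.2 hp.ne_zero
  have hvp1 : A.valuation (p : S44.Qb) < 1 := A.mem_nonunits_iff.mp hA
  have hvp0 : A.valuation (p : S44.Qb) ≠ 0 := (map_ne_zero _).mpr hp0
  set N : ℕ := n.factorial with hN
  have hN0 : N ≠ 0 := n.factorial_ne_zero
  -- every valuation is a rational power of `v(p)`
  have hν : ∀ z : L, z ≠ 0 → ∃ ν : ℤ, A.valuation (z : S44.Qb) ^ N = A.valuation (p : S44.Qb) ^ ν := by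
    intro z hz
    obtain ⟨S, hS, horb⟩ := hn z z.2
    obtain ⟨d, hd0, hdn, k, hk⟩ := unif_exists_pow_eq A hp hA
      (fun h => hz (Subtype.ext h) : (z : S44.Qb) ≠ 0) S hS horb
    obtain ⟨c, hc⟩ := Nat.dvd_factorial hd0 hdn
    refine ⟨k * c, ?_⟩
    rw [hN, hc, pow_mul, hk, zpow_mul, zpow_natCast]
  -- the group of exponents
  let T : AddSubgroup ℤ :=
    { carrier := {ν | ∃ z : L, z ≠ 0 ∧ A.valuation (z : S44.Qb) ^ N = A.valuation (p : S44.Qb) ^ ν}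
      zero_mem' := ⟨1, one_ne_zero, by simp⟩
      add_mem' := by
        rintro a b ⟨z, hz, h⟩ ⟨z', hz', h'⟩
        refine ⟨z * z', mul_ne_zero hz hz', ?_⟩
        rw [MulMemClass.coe_mul, map_mul, mul_pow, h, h', zpow_add₀ hvp0]
      neg_mem' := by
        rintro a ⟨z, hz, h⟩
        refine ⟨z⁻¹, inv_ne_zero hz, ?_⟩
        have e : ((z⁻¹ : L) : S44.Qb) = (z : S44.Qb)⁻¹ := rfl
        rw [e, map_inv₀, inv_pow, h, zpow_neg] }
  have hT : ∀ ν : ℤ, ν ∈ T ↔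
      ∃ z : L, z ≠ 0 ∧ A.valuation (z : S44.Qb) ^ N = A.valuation (p : S44.Qb) ^ ν := fun _ => Iff.rfl
  have hNT : (N : ℤ) ∈ T := by
    refine (hT _).2 ⟨(p : L), Nat.cast_ne_zero.2 hp.ne_zero, ?_⟩
    rw [zpow_natCast]
    rfl
  -- a positive generator
  obtain ⟨g, hg0, hgT, hgdvd⟩ : ∃ g : ℤ, 0 < g ∧ g ∈ T ∧ ∀ ν ∈ T, g ∣ ν := by
    obtain ⟨a, ha⟩ := Int.subgroup_cyclic T
    have haT : a ∈ T := by
      rw [ha]
      exact AddSubgroup.mem_closure_singleton_self a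
    have hdvd : ∀ ν ∈ T, a ∣ ν := by
      intro ν hν
      rw [ha, AddSubgroup.mem_closure_singleton] at hν
      obtain ⟨m, rfl⟩ := hν
      exact ⟨m, by rw [smul_eq_mul, mul_comm]⟩
    have ha0 : a ≠ 0 := by
      rintro rfl
      have := hdvd _ hNT
      rw [zero_dvd_iff] at this
      exact hN0 (by exact_mod_cast this)
    rcases lt_or_gt_of_ne ha0 with h | h
    · exact ⟨-a, by omega, T.neg_mem haT, fun ν hν => (neg_dvd).2 (hdvd ν hν)⟩
    · exact ⟨a, h, haT, hdvd⟩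
  obtain ⟨ϖ, hϖ0, hϖ⟩ := (hT g).1 hgT
  have hϖ0' : (ϖ : S44.Qb) ≠ 0 := fun h => hϖ0 (Subtype.ext h)
  -- an element of exponent zero is a unit
  have hunit : ∀ y : L, y ≠ 0 → A.valuation (y : S44.Qb) ^ N = 1 →
      y ∈ AL A L ∧ y⁻¹ ∈ AL A L := by
    intro y _ h
    rw [← map_pow] at h
    have h1 := val_eq_one_iff.1 (val_eq_one_of_pow hN0 h)
    exact ⟨h1.2.1, h1.2.2⟩
  have hvϖ : A.valuation (ϖ : S44.Qb) < 1 := by
    by_contra hcon
    rw [not_lt] at hcon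
    have h1 : 1 ≤ A.valuation (ϖ : S44.Qb) ^ N := one_le_pow₀ hcon
    rw [hϖ] at h1
    have h2 : A.valuation (p : S44.Qb) ^ g < 1 := by
      obtain ⟨m, rfl⟩ := Int.eq_ofNat_of_zero_le hg0.le
      rw [zpow_natCast]
      exact pow_lt_one₀ zero_le hvp1 (by omega)
    exact absurd h1 (not_le.2 h2)
  obtain ⟨e', he'⟩ := hgdvd _ hNT
  have he'0 : 0 < e' := by
    have hNpos : (0 : ℤ) < N := by exact_mod_cast Nat.pos_of_ne_zero hN0
    rw [he'] at hNpos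
    exact (mul_pos_iff_of_pos_left hg0).1 hNpos
  obtain ⟨e, rfl⟩ := Int.eq_ofNat_of_zero_le he'0.le
  refine ⟨ϖ, e, by omega, ⟨?_, ?_, ?_⟩, ?_⟩
  · exact (A.valuation_le_one_iff _).1 hvϖ.le
  · intro h
    have h1 : A.valuation ((ϖ : S44.Qb))⁻¹ ≤ 1 := (A.valuation_le_one_iff _).2 h
    rw [map_inv₀] at h1
    have h2 : A.valuation (ϖ : S44.Qb) ≠ 0 := (map_ne_zero _).mpr hϖ0'
    exact absurd hvϖ (not_lt.2 ((inv_le_one₀ (zero_lt_iff.2 h2)).1 h1))
  · intro y hy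
    obtain ⟨ν, hνy⟩ := hν y hy
    obtain ⟨m, rfl⟩ := hgdvd ν ((hT ν).2 ⟨y, hy, hνy⟩)
    refine ⟨m, hunit _ (div_ne_zero hy (zpow_ne_zero _ hϖ0)) ?_⟩
    have e1 : ((y / ϖ ^ m : L) : S44.Qb) = (y : S44.Qb) / (ϖ : S44.Qb) ^ m := by
      push_cast
      rfl
    have h2 : (A.valuation (ϖ : S44.Qb) ^ m) ^ N = A.valuation (p : S44.Qb) ^ (g * m) := by
      rw [← zpow_natCast (_ ^ m) N, ← zpow_mul, mul_comm m, zpow_mul, zpow_natCast, hϖ, ← zpow_mul]
    rw [e1, map_div₀, map_zpow₀, div_pow, hνy, h2]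
    exact div_self (zpow_ne_zero _ hvp0)
  · have hpL : (p : L) ≠ 0 := Nat.cast_ne_zero.2 hp.ne_zero
    have hu := hunit (ϖ ^ e / (p : L)) (div_ne_zero (pow_ne_zero _ hϖ0) hpL) (by
      have e1 : ((ϖ ^ e / (p : L) : L) : S44.Qb) = (ϖ : S44.Qb) ^ e / (p : S44.Qb) := by
        push_cast
        rfl
      rw [e1, map_div₀, map_pow, div_pow, ← pow_mul, mul_comm e, pow_mul, hϖ, ← zpow_natCast _ e,
        ← zpow_mul, ← he', zpow_natCast]
      exact div_self (pow_ne_zero _ hvp0))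
    have h1 : (AL A L).valuation (ϖ ^ e / (p : L)) = 1 :=
      val_eq_one_iff.2 ⟨div_ne_zero (pow_ne_zero _ hϖ0) hpL, hu.1, hu.2⟩
    rw [map_div₀, map_pow] at h1
    exact (div_eq_one_iff_eq ((map_ne_zero _).mpr hpL)).1 h1

end Fermat.Agent.S44.Depth.Inst

end
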