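/-
S44 / DEPTH (architect helper219), THE INSTANCE, block NT, node NT-2 (prover helper171):
if `p ∣ e` there is a wild element of inertia.
-/
import Fermat.Agent.S44.Depth.Inst.Defs
import Fermat.Agent.S44.Depth.Inst.NT.Orbit
import Fermat.Agent.S44.Depth.BC.Eis
import Fermat.Agent.S44.ES.Tame
import Fermat.Agent.BAD.Bridge.BaseHyp
import Fermat.Agent.Lib.InertiaField.Residue

set_option autoImplicit false

noncomputable section

namespace Fermat.Agent.S44.Depth.Inst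

open ModularCurve AlgebraicCurve Fermat.Agent.S24 Fermat.Agent.GAL Fermat.Agent.S44.X
  Fermat.Agent.Lib.InertiaField Fermat.Agent.S18.Descent Fermat.Agent.BAD.Bridge
  Fermat.Agent.S28.Export Fermat.Agent.S36.BP
open Fermat.Agent.S18 (IsUnif)

section NT

variable (A : ValuationSubring S44.Qb) {p : ℕ}

/-- the residue of `y / x`. -/
private def wildTheta (x y : S44.Qb) : kA A :=
  open Classical in if h : y / x ∈ A then IsLocalRing.residue A ⟨y / x, h⟩ else 0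

private theorem wildTheta_eq {x y : S44.Qb} (h : y / x ∈ A) :
    wildTheta A x y = IsLocalRing.residue A ⟨y / x, h⟩ := by
  unfold wildTheta
  rw [dif_pos h]

private theorem wild_val_eq_one {x : S44.Qb} (h : x ∈ A) (h' : x⁻¹ ∈ A) (h0 : x ≠ 0) :
    A.valuation x = 1 := by
  have h1 : A.valuation x ≤ 1 := (A.valuation_le_one_iff x).mpr h
  have h2 : A.valuation x⁻¹ ≤ 1 := (A.valuation_le_one_iff _).mpr h'
  have h3 : A.valuation x ≠ 0 := (A.valuation.ne_zero_iff).mpr h0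
  rw [map_inv₀, inv_le_one₀ (zero_lt_iff.mpr h3)] at h2
  exact le_antisymm h1 h2

/-- the core: two conjugates of `x` with the same residue of `y / x`. -/
private theorem wild_core (hp : p.Prime) (hA : A.LiesOverPrime p) {x w : S44.Qb} {e : ℕ}
    (he : 0 < e) (hpe : p ∣ e) (hx0 : x ≠ 0) (hw : w ∈ A) (hw' : w⁻¹ ∈ A) (hw0 : w ≠ 0)
    (hxe : x ^ e = (p : S44.Qb) * w)
    (hcard : ∀ S : Finset S44.Qb, (∀ σ ∈ Iner A, σ x ∈ S) → e ≤ S.card) :
    ∃ τ ∈ Iner A, τ x ≠ x ∧ A.valuation (τ x / x - 1) < 1 := by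
  classical
  have : Fact p.Prime := ⟨hp⟩
  have : CharP (kA A) p := charP_residueField A p hp hA
  obtain ⟨e', rfl⟩ := hpe
  have he' : 0 < e' := Nat.pos_of_ne_zero (by rintro rfl; simp at he)
  have hvx : A.valuation x ≠ 0 := (A.valuation.ne_zero_iff).mpr hx0
  -- the orbit
  have halg : IsIntegral ℚ x := (AlgebraicClosure.isAlgebraic ℚ).isIntegral.isIntegral x
  let R : Finset S44.Qb := ((minpoly ℚ x).aroots S44.Qb).toFinset
  let O : Finset S44.Qb := R.filter (fun y => ∃ σ ∈ Iner A, σ x = y)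
  have hO : ∀ σ ∈ Iner A, σ x ∈ O := by
    intro σ hσ
    refine Finset.mem_filter.2 ⟨?_, σ, hσ, rfl⟩
    rw [Multiset.mem_toFinset, Polynomial.mem_aroots]
    refine ⟨minpoly.ne_zero halg, ?_⟩
    rw [Polynomial.aeval_algHom_apply, minpoly.aeval, map_zero]
  have hcardO : p * e' ≤ O.card := hcard O hO
  -- units
  have hunit : ∀ σ ∈ Iner A, A.valuation (σ x / x) = 1 := by
    intro σ hσ
    rw [map_div₀, S44.ES.val_apply_eq A hσ, div_self hvx]
  have hmemA : ∀ σ ∈ Iner A, σ x / x ∈ A := fun σ hσ =>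
    (A.valuation_le_one_iff _).1 (hunit σ hσ).le
  -- `θ ^ e' = 1`
  have hroot : ∀ y ∈ O, wildTheta A x y ∈ Polynomial.nthRootsFinset e' (1 : kA A) := by
    intro y hy
    obtain ⟨-, σ, hσ, rfl⟩ := Finset.mem_filter.1 hy
    rw [Polynomial.mem_nthRootsFinset he', wildTheta_eq A (hmemA σ hσ)]
    have h1 : (σ x / x) ^ (p * e') - 1 = (σ w - w) * w⁻¹ := by
      have hp0 : (p : S44.Qb) ≠ 0 := by exact_mod_cast hp.ne_zero
      rw [div_pow, ← map_pow, hxe, map_mul, map_natCast]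
      field_simp
    have h2 : (σ x / x) ^ (p * e') - 1 ∈ A.nonunits := by
      rw [h1]
      exact Unram.mul_mem_nonunits (apply_sub_mem_nonunits A hσ hw) hw'
    have h3 : (IsLocalRing.residue A ⟨σ x / x, hmemA σ hσ⟩) ^ (p * e') = 1 := by
      rw [← map_pow, ← sub_eq_zero, ← map_one (IsLocalRing.residue A), ← map_sub,
        IsLocalRing.residue_eq_zero_iff]
      obtain ⟨hm, hm'⟩ := (ValuationSubring.mem_nonunits_iff_exists_mem_maximalIdeal).1 h2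
      exact hm'
    rw [mul_comm, pow_mul] at h3
    apply frobenius_inj (kA A) p
    rw [frobenius_def, frobenius_def, h3, one_pow]
  have hlt : (Polynomial.nthRootsFinset e' (1 : kA A)).card < O.card := by
    refine lt_of_le_of_lt (b := e') ?_ (lt_of_lt_of_le ?_ hcardO)
    · exact (Multiset.toFinset_card_le _).trans (Polynomial.card_nthRoots e' 1)
    · exact lt_mul_of_one_lt_left he' hp.one_lt
  obtain ⟨y, hy, y', hy', hne, heq⟩ := Finset.exists_ne_map_eq_of_card_lt_of_maps_to hlt hroot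
  obtain ⟨-, σ, hσ, rfl⟩ := Finset.mem_filter.1 hy
  obtain ⟨-, σ', hσ', rfl⟩ := Finset.mem_filter.1 hy'
  rw [wildTheta_eq A (hmemA σ hσ), wildTheta_eq A (hmemA σ' hσ'), ← sub_eq_zero, ← map_sub,
    IsLocalRing.residue_eq_zero_iff] at heq
  have h4 : σ x / x - σ' x / x ∈ A.nonunits :=
    (ValuationSubring.mem_nonunits_iff_exists_mem_maximalIdeal).2 ⟨_, heq⟩
  have h5 : A.valuation (σ x - σ' x) < A.valuation x := by
    rw [ValuationSubring.mem_nonunits_iff, ← sub_div, map_div₀,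
      div_lt_one₀ (zero_lt_iff.2 hvx)] at h4
    exact h4
  have hτ : σ'⁻¹ * σ ∈ Iner A := mul_mem (inv_mem hσ') hσ
  have h6 : (σ'⁻¹ * σ) x - x = σ'⁻¹ (σ x - σ' x) := by
    rw [map_sub, AlgEquiv.mul_apply, ← AlgEquiv.mul_apply σ'⁻¹ σ' x, inv_mul_cancel,
      AlgEquiv.one_apply]
  refine ⟨σ'⁻¹ * σ, hτ, ?_, ?_⟩
  · intro h
    apply hne
    have h7 : σ' ((σ'⁻¹ * σ) x) = σ' x := by rw [h]
    rwa [AlgEquiv.mul_apply, ← AlgEquiv.mul_apply σ' σ'⁻¹, mul_inv_cancel,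
      AlgEquiv.one_apply] at h7
  · have h8 : (σ'⁻¹ * σ) x / x - 1 = ((σ'⁻¹ * σ) x - x) / x := by
      field_simp
    rw [h8, map_div₀, div_lt_one₀ (zero_lt_iff.2 hvx), h6,
      S44.ES.val_apply_eq A (inv_mem hσ')]
    exact h5

/-- NT-2, with the orbit bound as a hypothesis. -/
private theorem wild_of_card (hp : p.Prime) (hA : A.LiesOverPrime p)
    (L : IntermediateField (K0 A) S44.Qb)
    (hst : ∀ σ ∈ Iner A, ∀ z ∈ L, σ z ∈ L) {ϖ : L} {e : ℕ} {a : ℕ → K0 A}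
    (hE : IsEis (A0 A) (p : K0 A) ϖ e a) (hpe : p ∣ e)
    (hcard : ∀ S : Finset S44.Qb, (∀ σ ∈ Iner A, σ (ϖ : S44.Qb) ∈ S) → e ≤ S.card) :
    ∃ τ ∈ Iner A, ∃ (δ : L) (c : ℕ), 1 ≤ c ∧ τ (ϖ : S44.Qb) = ϖ * (1 + δ) ∧
      (AL A L).valuation δ = (AL A L).valuation ϖ ^ c := by
  have hU : IsUnif (A0 A) (p : K0 A) := isUnif_A0 A p hp hA
  have hV : Ext (A0 A) (AL A L) := fun _ => Iff.rfl
  have hUL : IsUnif (AL A L) ϖ := eis_unif hU hE hV
  have hpow := eis_val_pow hU hE hV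
  have hϖ0 : ϖ ≠ 0 := by
    rintro rfl
    exact hUL.inv_notMem (by rw [inv_zero]; exact (AL A L).zero_mem)
  have hx0 : (ϖ : S44.Qb) ≠ 0 := fun h => hϖ0 (Subtype.ext h)
  have hp0 : (p : L) ≠ 0 := by exact_mod_cast hp.ne_zero
  have hp0' : (p : S44.Qb) ≠ 0 := by exact_mod_cast hp.ne_zero
  have hvp : (AL A L).valuation (p : L) ≠ 0 := ((AL A L).valuation.ne_zero_iff).mpr hp0
  -- the unit `w`
  have hw1 : (AL A L).valuation (ϖ ^ e / (p : L)) = 1 := by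
    rw [map_div₀, map_pow, hpow, map_natCast, div_self hvp]
  have hw : ((ϖ ^ e / (p : L) : L) : S44.Qb) ∈ A :=
    ((AL A L).valuation_le_one_iff _).1 hw1.le
  have hw' : (((ϖ ^ e / (p : L))⁻¹ : L) : S44.Qb) ∈ A :=
    ((AL A L).valuation_le_one_iff _).1 (by rw [map_inv₀, hw1, inv_one])
  have hcoe : ((ϖ ^ e / (p : L) : L) : S44.Qb) = (ϖ : S44.Qb) ^ e / (p : S44.Qb) := by
    push_cast
    rfl
  have hcoe' : (((ϖ ^ e / (p : L))⁻¹ : L) : S44.Qb) = ((ϖ : S44.Qb) ^ e / (p : S44.Qb))⁻¹ := by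
    rw [← hcoe]
    rfl
  rw [hcoe] at hw
  rw [hcoe'] at hw'
  obtain ⟨τ, hτ, hne, hlt⟩ := wild_core A hp hA hE.e_pos hpe hx0 hw hw'
    (div_ne_zero (pow_ne_zero _ hx0) hp0') (by field_simp) hcard
  -- `δ`
  let y : L := ⟨τ (ϖ : S44.Qb), hst τ hτ _ ϖ.2⟩
  have hδcoe : ((y / ϖ - 1 : L) : S44.Qb) = τ (ϖ : S44.Qb) / ϖ - 1 := rfl
  have hδ0 : y / ϖ - 1 ≠ 0 := by
    intro h
    apply hne
    have h1 : y = ϖ := by
      rw [sub_eq_zero, div_eq_one_iff_eq hϖ0] at h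
      exact h
    exact congrArg Subtype.val h1
  obtain ⟨n, hn1, hn2⟩ := hUL.exists_zpow _ hδ0
  have hvϖ0 : (AL A L).valuation ϖ ≠ 0 := ((AL A L).valuation.ne_zero_iff).mpr hϖ0
  have hvϖ1 : (AL A L).valuation ϖ < 1 := by
    have h1 := hUL.inv_notMem
    rw [← (AL A L).valuation_le_one_iff, map_inv₀, inv_le_one₀ (zero_lt_iff.mpr hvϖ0),
      not_le] at h1
    exact h1
  have hvδ0 : (AL A L).valuation (y / ϖ - 1) ≠ 0 := ((AL A L).valuation.ne_zero_iff).mpr hδ0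
  have hvδ1 : (AL A L).valuation (y / ϖ - 1) < 1 := by
    have h1 : (y / ϖ - 1)⁻¹ ∉ AL A L := by
      intro h
      have h2 : (τ (ϖ : S44.Qb) / ϖ - 1)⁻¹ ∈ A := h
      rw [← A.valuation_le_one_iff, map_inv₀] at h2
      have h3 : A.valuation (τ (ϖ : S44.Qb) / ϖ - 1) ≠ 0 :=
        (A.valuation.ne_zero_iff).mpr (fun h0 => hδ0 (Subtype.ext h0))
      rw [inv_le_one₀ (zero_lt_iff.mpr h3)] at h2
      exact absurd hlt (not_lt.2 h2)
    rw [← (AL A L).valuation_le_one_iff, map_inv₀, inv_le_one₀ (zero_lt_iff.mpr hvδ0),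
      not_le] at h1
    exact h1
  have hval : (AL A L).valuation (y / ϖ - 1) = (AL A L).valuation ϖ ^ n := by
    have h1 : (AL A L).valuation ((y / ϖ - 1) / ϖ ^ n) ≤ 1 :=
      ((AL A L).valuation_le_one_iff _).2 hn1
    have h2 : (AL A L).valuation ((y / ϖ - 1) / ϖ ^ n)⁻¹ ≤ 1 :=
      ((AL A L).valuation_le_one_iff _).2 hn2
    have h3 : (AL A L).valuation ((y / ϖ - 1) / ϖ ^ n) ≠ 0 :=
      ((AL A L).valuation.ne_zero_iff).mpr (div_ne_zero hδ0 (zpow_ne_zero _ hϖ0))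
    rw [map_inv₀, inv_le_one₀ (zero_lt_iff.mpr h3)] at h2
    have h4 := le_antisymm h1 h2
    rw [map_div₀, map_zpow₀, div_eq_one_iff_eq (zpow_ne_zero _ hvϖ0)] at h4
    exact h4
  have hn : 0 < n := by
    rw [hval, zpow_lt_one_iff_right_of_lt_one₀ (zero_lt_iff.mpr hvϖ0) hvϖ1] at hvδ1
    exact hvδ1
  refine ⟨τ, hτ, y / ϖ - 1, n.toNat, by omega, ?_, ?_⟩
  · rw [hδcoe]
    field_simp
    ring
  · rw [hval, ← zpow_natCast, Int.toNat_of_nonneg hn.le]

/-- NT-2: if `p ∣ e` there is a wild element of inertia. -/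
theorem exists_wild (hp : p.Prime) (hA : A.LiesOverPrime p) (L : IntermediateField (K0 A) S44.Qb)
    (hst : ∀ σ ∈ Iner A, ∀ z ∈ L, σ z ∈ L) {ϖ : L} {e : ℕ} {a : ℕ → K0 A}
    (hE : IsEis (A0 A) (p : K0 A) ϖ e a) (hpe : p ∣ e) :
    ∃ τ ∈ Iner A, ∃ (δ : L) (c : ℕ), 1 ≤ c ∧ τ (ϖ : S44.Qb) = ϖ * (1 + δ) ∧
      (AL A L).valuation δ = (AL A L).valuation ϖ ^ c :=
  wild_of_card A hp hA L hst hE hpe (le_card_of_isEis A hp hA L hE)

end NT

end Fermat.Agent.S44.Depth.Inst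

end
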